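/-
T1B (S44), TORIC50 model side (d2) **(K2) Part B**, abstract half (helper27):
TRANSPORT of a `Toric98.K2Datum` along a pair of ring isomorphisms.

`F / F₀` and `F' / F₀'` two field extensions, `σ : F ≃+* F'`, `τ : F₀ ≃+* F₀'` with
`σ ∘ algebraMap F₀ F = algebraMap F₀' F' ∘ τ`, valuation subrings `O1 O2 ⊂ F`, `O1' O2' ⊂ F'` with
`x ∈ O_i ↔ σ x ∈ O_i'`.  Then a `K2Datum ϖ p O1 O2` gives a `K2Datum (τ ϖ) p O1' O2'`
(`w' = σ w`, `θ' = σ θ`, `a' = τ a`).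

Application (`DatumBeta.lean`): `F₀ = F₀' = F_{M'}`, `F = F' = F_{M'q}` with the algebra structures
through `alpha` resp. `beta`, `σ = W_{M'q}`, `τ = W_{M'}` (Fricke), `(O1', O2') = (O2, O1)`: the
`beta`-instance of (K2) is the Fricke transport of the `alpha`-instance.
-/
import Mathlib
import Fermat.Agent.T1B.Toric98.Trace

set_option autoImplicit false

namespace Fermat.Agent.T1B.K2Model27

open Fermat.Agent.T1B.Toric98

variable {F₀ F F₀' F' : Type*} [Field F₀] [Field F] [Algebra F₀ F]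
  [Field F₀'] [Field F'] [Algebra F₀' F']

section PiO

variable (σ : F ≃+* F') (τ : F₀ ≃+* F₀')
  (hστ : ∀ x, σ (algebraMap F₀ F x) = algebraMap F₀' F' (τ x))

include hστ in
/-- `x ∈ ϖ O → σ x ∈ (τ ϖ) O'`. -/
theorem piO_map {ϖ : F₀} {O : ValuationSubring F} {O' : ValuationSubring F'}
    (h : ∀ x, x ∈ O ↔ σ x ∈ O') {x : F} (hx : PiO ϖ O x) : PiO (τ ϖ) O' (σ x) := by
  obtain ⟨c, hc, rfl⟩ := hx
  exact ⟨σ c, (h c).1 hc, by rw [map_mul, hστ]⟩

include hστ in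
/-- `σ x ∈ (τ ϖ) O' → x ∈ ϖ O`. -/
theorem piO_of_map {ϖ : F₀} {O : ValuationSubring F} {O' : ValuationSubring F'}
    (h : ∀ x, x ∈ O ↔ σ x ∈ O') {x : F} (hx : PiO (τ ϖ) O' (σ x)) : PiO ϖ O x := by
  obtain ⟨c, hc, hxc⟩ := hx
  refine ⟨σ.symm c, (h _).2 (by rwa [RingEquiv.apply_symm_apply]), ?_⟩
  apply σ.injective
  rw [hxc, map_mul, hστ, RingEquiv.apply_symm_apply]

end PiO

/-- **Transport of a `K2Datum`** along `σ : F ≃+* F'`, `τ : F₀ ≃+* F₀'`. -/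
def transport (σ : F ≃+* F') (τ : F₀ ≃+* F₀')
    (hστ : ∀ x, σ (algebraMap F₀ F x) = algebraMap F₀' F' (τ x))
    {ϖ : F₀} {p : ℕ} {O1 O2 : ValuationSubring F} {O1' O2' : ValuationSubring F'}
    (h1 : ∀ x, x ∈ O1 ↔ σ x ∈ O1') (h2 : ∀ x, x ∈ O2 ↔ σ x ∈ O2')
    (D : K2Datum ϖ p O1 O2) : K2Datum (τ ϖ) p O1' O2' where
  w := σ D.w
  θ := σ D.θ
  a := τ D.a
  hcomap := by
    intro x
    obtain ⟨y, rfl⟩ := τ.surjective x
    rw [← hστ, ← h1, ← h2]
    exact D.hcomap y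
  pi_nonunit1 := by
    rw [← hστ, ← map_inv₀, ← h1]
    exact D.pi_nonunit1
  pi_nonunit2 := by
    rw [← hστ, ← map_inv₀, ← h2]
    exact D.pi_nonunit2
  unif1 := by
    intro x hx hx'
    obtain ⟨y, rfl⟩ := σ.surjective x
    rw [← h1] at hx
    rw [← map_inv₀, ← h1] at hx'
    exact piO_map σ τ hστ h1 (D.unif1 y hx hx')
  hw1 := by
    have := piO_map σ τ hστ h1 D.hw1
    rwa [map_sub, map_one] at this
  hw2 := piO_map σ τ hστ h2 D.hw2
  hθ1 := (h1 _).1 D.hθ1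
  hθ2 := (h2 _).1 D.hθ2
  ha := by
    rw [← hστ, ← h1]
    exact D.ha
  hθp := by
    have := piO_map σ τ hστ h2 D.hθp
    rwa [map_sub, map_pow, hστ] at this
  hind := by
    intro c hc hsum i
    have hc' : ∀ i, algebraMap F₀ F (τ.symm (c i)) ∈ O1 := by
      intro i
      rw [h1, hστ, RingEquiv.apply_symm_apply]
      exact hc i
    have hsum' : PiO ϖ O2 (∑ i, algebraMap F₀ F (τ.symm (c i)) * D.θ ^ (i : ℕ)) := by
      apply piO_of_map σ τ hστ h2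
      rw [map_sum]
      convert hsum using 2 with i _
      rw [map_mul, map_pow, hστ, RingEquiv.apply_symm_apply]
    obtain ⟨c', hc'1, hc'2⟩ := D.hind (fun i => τ.symm (c i)) hc' hsum' i
    refine ⟨τ c', ?_, ?_⟩
    · rw [← hστ, ← h1]
      exact hc'1
    · rw [← map_mul, ← hc'2, RingEquiv.apply_symm_apply]
  hp := by
    obtain ⟨c', hc'1, hc'2⟩ := D.hp
    refine ⟨τ c', ?_, ?_⟩
    · rw [← hστ, ← h1]
      exact hc'1
    · rw [← map_mul, ← hc'2, map_natCast]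
  hrank := by
    rw [← D.hrank]
    symm
    apply Algebra.finrank_eq_of_equiv_equiv τ σ
    ext x
    exact (hστ x).symm

end Fermat.Agent.T1B.K2Model27
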