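/-
T1B (S44), TORIC50 model side (d2) **(K2) Part B**, concrete half (helper27):
on Program N's model (`ES/N34/ModelDefs9`) the `beta`-instance of `Toric98.K2Datum`
(algebra `F_{M'} → F_{M'q}` through `beta`, valuation rings `(O2, O1)`) is the FRICKE TRANSPORT of
the `alpha`-instance (algebra through `alpha`, valuation rings `(O1, O2)`):
`σ = W_{M'q}`, `τ = W_{M'}`, `W_{M'q} ∘ alpha = beta ∘ W_{M'}` (`FrickeV11.wN_alpha`),
`O2 = W_{M'q}⁻¹ O1`; both involutions are `K`-linear, hence fix the constant `π`.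

* `wNEquiv`, `wMEquiv` : the two Fricke involutions as ring automorphisms;
* `k2Datum_beta_of_alpha'` : for any `ϖ` fixed by `W_{M'}`;
* `k2Datum_beta_of_alpha`  : for `ϖ = algebraMap R F_{M'} π` (the shape of `Toric98.k2_of_datum`);
* `k2Datum_alpha_of_beta`  : the converse transport.
-/
import Mathlib
import Fermat.Agent.T1B.K2Model27.Transport
import Fermat.Agent.ES.N34.FrickeV11
import Fermat.Agent.T1.Assembly41.FastInst

set_option autoImplicit false
set_option linter.unusedSectionVars false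

noncomputable section

open HahnSeries ModularCurve

namespace Fermat.Agent.T1B.K2Model27

open Fermat.Agent.RED.Interface4 Fermat.Agent.RED.PUR.GaussGen8
  Fermat.Agent.ES.N34.FrickeFK8 Fermat.Agent.ES.N34.ModelDefs9 Fermat.Agent.T1B.Toric98
open scoped Fermat.Agent.T1.Assembly41.FastInst

variable {A : ValuationSubring Qbar} {K : IntermediateField ℚ Qbar} (M' q : ℕ) [NeZero M'] [NeZero q]

/-- the algebra structure `F_{M'} → F_{M'q}` through `alpha` (use with `letI`). -/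
abbrev algAlpha (K : IntermediateField ℚ Qbar) (M' q : ℕ) [NeZero M'] [NeZero q] :
    Algebra ↥(FK M' K) ↥(FK (M' * q) K) := (alpha K M' q).toRingHom.toAlgebra

/-- the algebra structure `F_{M'} → F_{M'q}` through `beta` (use with `letI`). -/
abbrev algBeta (K : IntermediateField ℚ Qbar) (M' q : ℕ) [NeZero M'] [NeZero q] :
    Algebra ↥(FK M' K) ↥(FK (M' * q) K) := (beta K M' q).toRingHom.toAlgebra

/-- the Fricke involution `W_{M'q}` of `F_{M'q}` as a ring automorphism. -/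
def wNEquiv (K : IntermediateField ℚ Qbar) (M' q : ℕ) [NeZero M'] [NeZero q] :
    ↥(FK (M' * q) K) ≃+* ↥(FK (M' * q) K) :=
  RingEquiv.ofRingHom (wN K M' q).toRingHom (wN K M' q).toRingHom
    (RingHom.ext fun x => wN_wN K M' q x) (RingHom.ext fun x => wN_wN K M' q x)

@[simp] theorem wNEquiv_apply (x : ↥(FK (M' * q) K)) : wNEquiv K M' q x = wN K M' q x := rfl

/-- the Fricke involution `W_{M'}` of `F_{M'}` as a ring automorphism. -/
def wMEquiv (K : IntermediateField ℚ Qbar) (M' : ℕ) [NeZero M'] : ↥(FK M' K) ≃+* ↥(FK M' K) :=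
  RingEquiv.ofRingHom (frickeFK M' K).toRingHom (frickeFK M' K).toRingHom
    (RingHom.ext fun x => frickeFK_frickeFK M' K x) (RingHom.ext fun x => frickeFK_frickeFK M' K x)

@[simp] theorem wMEquiv_apply (x : ↥(FK M' K)) : wMEquiv K M' x = frickeFK M' K x := rfl

/-- `W_{M'}` fixes the constants of `R = A ∩ K`. -/
theorem frickeFK_algebraMap (π : ↥(AK A K)) :
    frickeFK M' K (algebraMap ↥(AK A K) ↥(FK M' K) π) = algebraMap ↥(AK A K) ↥(FK M' K) π := by
  rw [IsScalarTower.algebraMap_apply ↥(AK A K) ↥K ↥(FK M' K), AlgHom.commutes]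

variable {π : ↥(AK A K)} (hu : IsUnif (AK A K) π) (hE : FK (M' * q) K ≤ fracField (AK A K))

/-- **The `beta`-instance of (K2) from the `alpha`-instance** (Fricke transport), `ϖ` any element of
`F_{M'}` fixed by `W_{M'}`. -/
def k2Datum_beta_of_alpha' {ϖ : ↥(FK M' K)} (hϖ : frickeFK M' K ϖ = ϖ) {p : ℕ}
    (D : @K2Datum ↥(FK M' K) ↥(FK (M' * q) K) _ _ (algAlpha K M' q) ϖ p
      (O1 M' q hu hE) (O2 M' q hu hE)) :
    @K2Datum ↥(FK M' K) ↥(FK (M' * q) K) _ _ (algBeta K M' q) ϖ p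
      (O2 M' q hu hE) (O1 M' q hu hE) := by
  have D' := @transport ↥(FK M' K) ↥(FK (M' * q) K) ↥(FK M' K) ↥(FK (M' * q) K) _ _
    (algAlpha K M' q) _ _ (algBeta K M' q) (wNEquiv K M' q) (wMEquiv K M')
    (fun x => Fermat.Agent.ES.N34.FrickeV11.wN_alpha K M' q x) ϖ p (O1 M' q hu hE) (O2 M' q hu hE)
    (O2 M' q hu hE) (O1 M' q hu hE)
    (fun x => (wN_mem_O2_iff M' q hu hE x).symm) (fun x => mem_O2_iff_wN_mem_O1 M' q hu hE x) D
  have h : wMEquiv K M' ϖ = ϖ := hϖ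
  rw [h] at D'
  exact D'

/-- **The `alpha`-instance of (K2) from the `beta`-instance** (Fricke transport). -/
def k2Datum_alpha_of_beta' {ϖ : ↥(FK M' K)} (hϖ : frickeFK M' K ϖ = ϖ) {p : ℕ}
    (D : @K2Datum ↥(FK M' K) ↥(FK (M' * q) K) _ _ (algBeta K M' q) ϖ p
      (O2 M' q hu hE) (O1 M' q hu hE)) :
    @K2Datum ↥(FK M' K) ↥(FK (M' * q) K) _ _ (algAlpha K M' q) ϖ p
      (O1 M' q hu hE) (O2 M' q hu hE) := by
  have D' := @transport ↥(FK M' K) ↥(FK (M' * q) K) ↥(FK M' K) ↥(FK (M' * q) K) _ _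
    (algBeta K M' q) _ _ (algAlpha K M' q) (wNEquiv K M' q) (wMEquiv K M')
    (fun x => Fermat.Agent.ES.N34.FrickeV11.wN_beta K M' q x) ϖ p (O2 M' q hu hE) (O1 M' q hu hE)
    (O1 M' q hu hE) (O2 M' q hu hE)
    (fun x => mem_O2_iff_wN_mem_O1 M' q hu hE x) (fun x => (wN_mem_O2_iff M' q hu hE x).symm) D
  have h : wMEquiv K M' ϖ = ϖ := hϖ
  rw [h] at D'
  exact D'

/-- **(K2) for `beta` from (K2) for `alpha`**, in the shape of `Toric98.k2_of_datum`:
`ϖ = algebraMap R F_{M'} π`. -/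
def k2Datum_beta_of_alpha {p : ℕ}
    (D : @K2Datum ↥(FK M' K) ↥(FK (M' * q) K) _ _ (algAlpha K M' q)
      (algebraMap ↥(AK A K) ↥(FK M' K) π) p (O1 M' q hu hE) (O2 M' q hu hE)) :
    @K2Datum ↥(FK M' K) ↥(FK (M' * q) K) _ _ (algBeta K M' q)
      (algebraMap ↥(AK A K) ↥(FK M' K) π) p (O2 M' q hu hE) (O1 M' q hu hE) :=
  k2Datum_beta_of_alpha' M' q hu hE (frickeFK_algebraMap M' π) D

/-- **(K2) for `alpha` from (K2) for `beta`**, `ϖ = algebraMap R F_{M'} π`. -/
def k2Datum_alpha_of_beta {p : ℕ}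
    (D : @K2Datum ↥(FK M' K) ↥(FK (M' * q) K) _ _ (algBeta K M' q)
      (algebraMap ↥(AK A K) ↥(FK M' K) π) p (O2 M' q hu hE) (O1 M' q hu hE)) :
    @K2Datum ↥(FK M' K) ↥(FK (M' * q) K) _ _ (algAlpha K M' q)
      (algebraMap ↥(AK A K) ↥(FK M' K) π) p (O1 M' q hu hE) (O2 M' q hu hE) :=
  k2Datum_alpha_of_beta' M' q hu hE (frickeFK_algebraMap M' π) D

end Fermat.Agent.T1B.K2Model27
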